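/-
Project BAD, block LevelQ/Pt, sub-block PT-B (helper21): CLASSIFICATION of the closed points of the
model of level `M q`.  DEFINITIONS (on top of helper139's PT-A vocabulary `Pt/Defs.lean`:
`PtBaseM`, `MChart`, `IsModelPt`, `Dominates`).
A closed point of the model is `R` with `IsModelPt A₀ ϖ₀ (xx al be x') R`.
-/
import Fermat.Agent.BAD.LevelQ.Pt.Defs
import Fermat.Agent.BAD.LevelQ.Hub

set_option autoImplicit false

noncomputable section

namespace Fermat.Agent.BAD.LevelQ

open Polynomial IntermediateField Fermat.Agent.S18 Fermat.Agent.S36.BP Fermat.Agent.BAD.Model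

variable {K₀ F : Type*} [Field K₀] [Field F] [Algebra K₀ F]

/-- The two "eta units": `x y = ϖ`, `x` is a unit on the component `V 0` and `y` on `V 1`.
(In the instance `x = const * G(z) / G(q z)`, `y = q / x = const * w x`.) -/
structure Eta (ϖ : F) (V : Fin 2 → ValuationSubring F) (x y : F) : Prop where
  mul_eq : x * y = ϖ
  x_unit : (V 0).valuation x = 1
  y_unit : (V 1).valuation y = 1

/-- The input of the cusp analysis at level `M q`: `s = 1 / j(z)`, `s' = 1 / j(q z)`,
`Rel q c s s'` = the modular equation, and Kronecker's congruences on the two components. -/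
structure CuspQ (A₀ : ValuationSubring K₀) (q : ℕ) (V : Fin 2 → ValuationSubring F)
    (c : ℕ → ℕ → K₀) (s s' : F) : Prop where
  coeff_mem : ∀ a b, c a b ∈ A₀
  coeff_unit : A₀.valuation (c 0 0) = 1
  ne : s ≠ 0
  ne' : s' ≠ 0
  rel : Rel q c s s'
  cong0 : (V 0).valuation (s ^ q / s' - 1) < 1
  cong1 : (V 1).valuation (s' ^ q / s - 1) < 1

end Fermat.Agent.BAD.LevelQ

end
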