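/-
Project BAD, block LevelQ/Pt, sub-block PT-B (helper21): the model of level `M q` is an `MChart`.
-/
import Fermat.Agent.BAD.LevelQ.Pt.B.Defs
import Fermat.Agent.BAD.LevelQ.Pt.Main
import Fermat.Agent.BAD.LevelQ.Hub.Basic

set_option autoImplicit false

noncomputable section

namespace Fermat.Agent.BAD.LevelQ

open Polynomial IntermediateField Fermat.Agent.S18 Fermat.Agent.S36.BP Fermat.Agent.BAD.Model

variable {K₀ F' F : Type*} [Field K₀] [Field F'] [Field F] [Algebra K₀ F'] [Algebra K₀ F]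
variable {A₀ : ValuationSubring K₀} {ϖ₀ : K₀} {q : ℕ} {al be : F' →ₐ[K₀] F} {w : F ≃ₐ[K₀] F}
  {γ : F' →+* F'} {Ow' : ValuationSubring F'} {V : Fin 2 → ValuationSubring F} {x' : F'}
  {R : Subring F}

theorem LQ.mChart (H : LQ A₀ ϖ₀ q al be w γ Ow' V x') : MChart A₀ ϖ₀ V (xx al be x') where
  vert := H.isMVert
  coord := H.isMCoord
  sep := H.sep
  unif := H.unif_all

/-- a point either contains `ch₁`, or it contains `ch₂` and `xx⁻¹` is not a unit. -/
theorem LQ.ch₁_le_or (H : LQ A₀ ϖ₀ q al be w γ Ow' V x')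
    (hR : IsModelPt A₀ ϖ₀ (xx al be x') R) :
    (∀ b ∈ ch₁ A₀ al be x', b ∈ R) ∨
      ((∀ b ∈ ch₂ A₀ al be x', b ∈ R) ∧ (xx al be x')⁻¹ ∈ rad R) := by
  rcases hR.cases H.vert'.unif₀ H.mChart.ne_zero with h | ⟨h, h'⟩
  · exact Or.inl fun b hb => h.le hb
  · exact Or.inr ⟨fun b hb => h.le hb, h'⟩

end Fermat.Agent.BAD.LevelQ

end
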