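/-
Project BAD, block LevelQ/Pt, sub-block PT-B (helper21): cuspidal points lie on one component.
-/
import Fermat.Agent.BAD.LevelQ.Pt.B.LQ
import Fermat.Agent.BAD.Model.Cusp.MemRad
import Fermat.Agent.BAD.Model.Cusp.Dichotomy

set_option autoImplicit false

noncomputable section

namespace Fermat.Agent.BAD.LevelQ

open Polynomial IntermediateField Fermat.Agent.S18 Fermat.Agent.S36.BP Fermat.Agent.BAD.Model

variable {K₀ F' F : Type*} [Field K₀] [Field F'] [Field F] [Algebra K₀ F'] [Algebra K₀ F]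
variable {A₀ : ValuationSubring K₀} {ϖ₀ : K₀} {q : ℕ} {al be : F' →ₐ[K₀] F} {w : F ≃ₐ[K₀] F}
  {γ : F' →+* F'} {Ow' : ValuationSubring F'} {V : Fin 2 → ValuationSubring F} {x' : F'}
  {R : Subring F}
variable {c : ℕ → ℕ → K₀} {s s' : F}

theorem CuspQ.away (hq : 2 ≤ q) (hR : IsPt A₀ R) (C : CuspQ A₀ q V c s s') (hs : s ∈ rad R) :
    Away R (V 0) ∨ Away R (V 1) := by
  rcases C.rel.dichotomy hR hq C.coeff_mem C.coeff_unit C.ne C.ne' hs with ⟨-, h⟩ | ⟨-, h⟩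
  · exact Or.inr (away_of_mem_rad hR h C.cong1)
  · exact Or.inl (away_of_mem_rad hR h C.cong0)

theorem CuspQ.mem_rad_of_mul (hR : IsPt A₀ R) (C : CuspQ A₀ q V c s s') (hs : s ∈ R)
    (hs' : s' ∈ R) (h : s * s' ∈ rad R) : s ∈ rad R := by
  rcases runit_or_mem_rad hs with hu | hr
  · have h1 : s' ∈ rad R := by
      have e : s' = s⁻¹ * (s * s') := by rw [inv_mul_cancel_left₀ hu.1]
      rw [e]
      exact mul_mem_rad hu.2.2 h
    exact C.rel.symm.mem_rad hR (fun a b => C.coeff_mem b a) h1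
  · exact hr

/-- the dichotomy cusp / non cusp, for a coordinate `x'` whose poles are the cusps (`x' = j`). -/
theorem LQ.cusp_or [CharZero K₀] (hac : IsAlgClosed (IsLocalRing.ResidueField A₀))
    (H : LQ A₀ ϖ₀ q al be w γ Ow' V x') (C : CuspQ A₀ q V c (al x')⁻¹ (be x')⁻¹)
    (hR : IsModelPt A₀ ϖ₀ (xx al be x') R) :
    (∀ b ∈ ch₁ A₀ al be x', b ∈ R) ∨ ((al x')⁻¹ ∈ rad R ∧ (Away R (V 0) ∨ Away R (V 1))) := by
  have hP : IsPt A₀ R := hR.isPt H.mChart hac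
  rcases H.ch₁_le_or hR with h | ⟨h, h'⟩
  · exact Or.inl h
  · right
    have h1 : (al x')⁻¹ ∈ R := by
      rw [← map_inv₀]
      exact h _ (H.al_mem_ch₂ (self_mem_chart _))
    have h2 : (be x')⁻¹ ∈ R := by
      rw [← map_inv₀]
      exact h _ (H.be_mem_ch₂ (self_mem_chart _))
    have h3 : (al x')⁻¹ * (be x')⁻¹ ∈ rad R := by
      rw [← mul_inv]
      exact h'
    have h4 : (al x')⁻¹ ∈ rad R := C.mem_rad_of_mul hP h1 h2 h3
    exact ⟨h4, C.away H.prime.two_le hP h4⟩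

end Fermat.Agent.BAD.LevelQ

end
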