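/-
Project BAD, block LevelQ/Pt, sub-block PT-B (helper21): smooth points and nodes `x y = ϖ₀`.
-/
import Fermat.Agent.BAD.LevelQ.Pt.B.Defs
import Fermat.Agent.S36.BP.Rad
import Fermat.Agent.S18.Chart.Unif
import Fermat.Agent.BAD.LevelQ.Abs.Coord

set_option autoImplicit false

noncomputable section

namespace Fermat.Agent.BAD.LevelQ

open Polynomial IntermediateField Fermat.Agent.S18 Fermat.Agent.S36.BP Fermat.Agent.BAD.Model

variable {K₀ F' F : Type*} [Field K₀] [Field F'] [Field F] [Algebra K₀ F'] [Algebra K₀ F]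
variable {A₀ : ValuationSubring K₀} {ϖ₀ : K₀} {q : ℕ} {al be : F' →ₐ[K₀] F} {w : F ≃ₐ[K₀] F}
  {γ : F' →+* F'} {Ow' : ValuationSubring F'} {V : Fin 2 → ValuationSubring F} {x' : F'}
  {R : Subring F}
variable {x y : F}

theorem loc_mem {W : ValuationSubring F} {z : F} (h : W.valuation z = 1) : z ∈ W :=
  (W.valuation_le_one_iff _).1 h.le

theorem loc_inv_mem {W : ValuationSubring F} {z : F} (h : W.valuation z = 1) : z⁻¹ ∈ W := by
  rw [← W.valuation_le_one_iff, map_inv₀, h, inv_one]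

theorem loc_ne_zero {W : ValuationSubring F} {z : F} (h : W.valuation z = 1) : z ≠ 0 := by
  rintro rfl
  rw [map_zero] at h
  exact zero_ne_one h

theorem loc_unif_ne_zero {W : ValuationSubring F} {ϖ : F} (h : IsUnif W ϖ) : ϖ ≠ 0 := by
  rintro rfl
  apply h.inv_notMem
  rw [inv_zero]
  exact W.zero_mem

theorem PtBaseM.princ_smooth (hR : PtBaseM A₀ ϖ₀ V R)
    (hU : ∀ c, IsUnif (V c) (algebraMap K₀ F ϖ₀)) (c : Fin 2)
    (hA : ∀ c', c' ≠ c → Away R (V c')) :
    ∀ r ∈ R, (V c).valuation r < 1 → r / algebraMap K₀ F ϖ₀ ∈ R := by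
  intro r hr hlt
  have h0 := loc_unif_ne_zero (hU c)
  refine hR.qep _ ?_ fun c' => ?_
  · rwa [mul_div_cancel₀ _ h0]
  · by_cases hc : c' = c
    · subst hc
      exact Or.inl (CoordAux.div_mem_of_valuation_lt_one (hU c') hlt)
    · exact Or.inr (hA c' hc)

theorem PtBaseM.princ_zero (hR : PtBaseM A₀ ϖ₀ V R) (hU : ∀ c, IsUnif (V c) (algebraMap K₀ F ϖ₀))
    (E : Eta (algebraMap K₀ F ϖ₀) V x y) (hx : x ∈ R) :
    ∀ r ∈ R, (V 0).valuation r < 1 → r / y ∈ R := by
  intro r hr hlt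
  have hx0 := loc_ne_zero E.x_unit
  have hy0 := loc_ne_zero E.y_unit
  refine hR.qep _ ?_ ?_
  · have e : algebraMap K₀ F ϖ₀ * (r / y) = x * r := by
      rw [← E.mul_eq]
      field_simp
    rw [e]
    exact R.mul_mem hx hr
  · rw [Fin.forall_fin_two]
    constructor
    · left
      have e : r / y = r / algebraMap K₀ F ϖ₀ * x := by
        rw [← E.mul_eq]
        field_simp
      rw [e]
      exact (V 0).mul_mem _ _ (CoordAux.div_mem_of_valuation_lt_one (hU 0) hlt)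
        (loc_mem E.x_unit)
    · rcases hR.leLoc_or_away 1 with h1 | h1
      · left
        rw [div_eq_mul_inv]
        exact (V 1).mul_mem _ _ (h1.1 r hr) (loc_inv_mem E.y_unit)
      · exact Or.inr h1

theorem PtBaseM.princ_one (hR : PtBaseM A₀ ϖ₀ V R) (hU : ∀ c, IsUnif (V c) (algebraMap K₀ F ϖ₀))
    (E : Eta (algebraMap K₀ F ϖ₀) V x y) (hy : y ∈ R) :
    ∀ r ∈ R, (V 1).valuation r < 1 → r / x ∈ R := by
  intro r hr hlt
  have hx0 := loc_ne_zero E.x_unit
  have hy0 := loc_ne_zero E.y_unit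
  refine hR.qep _ ?_ ?_
  · have e : algebraMap K₀ F ϖ₀ * (r / x) = y * r := by
      rw [← E.mul_eq]
      field_simp
    rw [e]
    exact R.mul_mem hy hr
  · rw [Fin.forall_fin_two]
    constructor
    · rcases hR.leLoc_or_away 0 with h1 | h1
      · left
        rw [div_eq_mul_inv]
        exact (V 0).mul_mem _ _ (h1.1 r hr) (loc_inv_mem E.x_unit)
      · exact Or.inr h1
    · left
      have e : r / x = r / algebraMap K₀ F ϖ₀ * y := by
        rw [← E.mul_eq]
        field_simp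
      rw [e]
      exact (V 1).mul_mem _ _ (CoordAux.div_mem_of_valuation_lt_one (hU 1) hlt)
        (loc_mem E.y_unit)

theorem PtBaseM.runit_x (hR : PtBaseM A₀ ϖ₀ V R) (E : Eta (algebraMap K₀ F ϖ₀) V x y)
    (hx : x ∈ R) (hy : y ∈ R) (hA : Away R (V 1)) : RUnit R x := by
  have hx0 := loc_ne_zero E.x_unit
  refine ⟨hx0, hx, hR.qep _ ?_ ?_⟩
  · have e : algebraMap K₀ F ϖ₀ * x⁻¹ = y := by
      rw [← E.mul_eq]
      field_simp
    rwa [e]
  · rw [Fin.forall_fin_two]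
    exact ⟨Or.inl (loc_inv_mem E.x_unit), Or.inr hA⟩

theorem PtBaseM.runit_y (hR : PtBaseM A₀ ϖ₀ V R) (E : Eta (algebraMap K₀ F ϖ₀) V x y)
    (hx : x ∈ R) (hy : y ∈ R) (hA : Away R (V 0)) : RUnit R y := by
  have hy0 := loc_ne_zero E.y_unit
  refine ⟨hy0, hy, hR.qep _ ?_ ?_⟩
  · have e : algebraMap K₀ F ϖ₀ * y⁻¹ = x := by
      rw [← E.mul_eq]
      field_simp
    rwa [e]
  · rw [Fin.forall_fin_two]
    exact ⟨Or.inr hA, Or.inl (loc_inv_mem E.y_unit)⟩

end Fermat.Agent.BAD.LevelQ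

end
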