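/-
Project BAD, block LevelQ/Pt, sub-block PT-B (helper21): the components through a point are copies of the good model of level `M`.
-/
import Fermat.Agent.BAD.LevelQ.Pt.B.LQ
import Fermat.Agent.BAD.LevelQ.Hub.Nor
import Fermat.Agent.BAD.Model.Cusp.Through
import Fermat.Agent.BAD.Model.Input.GoodBelow

set_option autoImplicit false

noncomputable section

namespace Fermat.Agent.BAD.LevelQ

open Polynomial IntermediateField Fermat.Agent.S18 Fermat.Agent.S36.BP Fermat.Agent.BAD.Model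

variable {K₀ F' F : Type*} [Field K₀] [Field F'] [Field F] [Algebra K₀ F'] [Algebra K₀ F]
variable {A₀ : ValuationSubring K₀} {ϖ₀ : K₀} {q : ℕ} {al be : F' →ₐ[K₀] F} {w : F ≃ₐ[K₀] F}
  {γ : F' →+* F'} {Ow' : ValuationSubring F'} {V : Fin 2 → ValuationSubring F} {x' : F'}
  {R : Subring F}

theorem LQ.through_zero (H : LQ A₀ ϖ₀ q al be w γ Ow' V x') (hR : IsPt A₀ R)
    (hB : (∀ r ∈ chart A₀.toSubring x', al r ∈ R) ∨ (∀ r ∈ chart A₀.toSubring x'⁻¹, al r ∈ R))
    (hL : LeLoc R (V 0)) : Through R (V 0) := by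
  have hW : (V 0).comap (al : F' →+* F) = Ow' := by
    ext f
    rw [ValuationSubring.mem_comap]
    exact H.comap_al f
  have hd : ∀ y ∈ V 0, ∃ y₀ : F', (V 0).valuation ((al : F' →+* F) y₀ - y) < 1 := by
    intro y hy
    obtain ⟨r, -, hr⟩ := H.dense y hy
    exact ⟨r, by rw [Valuation.map_sub_swap]; exact hr⟩
  rcases hB with hB | hB
  · exact GoodBelow.through hR hL
      (goodBelow_of_isChart (al : F' →+* F) H.vert'.unif H.chart₁' hW hd hR hL.1 hB)
  · exact GoodBelow.through hR hL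
      (goodBelow_of_isChart (al : F' →+* F) H.vert'.unif H.chart₂' hW hd hR hL.1 hB)

theorem LQ.through_one (H : LQ A₀ ϖ₀ q al be w γ Ow' V x') (hR : IsPt A₀ R)
    (hB : (∀ r ∈ chart A₀.toSubring x', be r ∈ R) ∨ (∀ r ∈ chart A₀.toSubring x'⁻¹, be r ∈ R))
    (hL : LeLoc R (V 1)) : Through R (V 1) := by
  have hW : (V 1).comap (be : F' →+* F) = Ow' := by
    ext f
    rw [ValuationSubring.mem_comap]
    exact H.be_mem_iff 1 f
  have hd : ∀ y ∈ V 1, ∃ y₀ : F', (V 1).valuation ((be : F' →+* F) y₀ - y) < 1 := by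
    intro y hy
    obtain ⟨r, -, hr⟩ := H.dense_one y hy
    exact ⟨r, by rw [Valuation.map_sub_swap]; exact hr⟩
  rcases hB with hB | hB
  · exact GoodBelow.through hR hL
      (goodBelow_of_isChart (be : F' →+* F) H.vert'.unif H.chart₁' hW hd hR hL.1 hB)
  · exact GoodBelow.through hR hL
      (goodBelow_of_isChart (be : F' →+* F) H.vert'.unif H.chart₂' hW hd hR hL.1 hB)

theorem LQ.through [CharZero K₀] (hac : IsAlgClosed (IsLocalRing.ResidueField A₀))
    (H : LQ A₀ ϖ₀ q al be w γ Ow' V x') (hR : IsModelPt A₀ ϖ₀ (xx al be x') R) (c : Fin 2)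
    (hL : LeLoc R (V c)) : Through R (V c) := by
  have hpt : IsPt A₀ R := hR.isPt H.mChart hac
  have hal : (∀ r ∈ chart A₀.toSubring x', al r ∈ R) ∨
      (∀ r ∈ chart A₀.toSubring x'⁻¹, al r ∈ R) := by
    rcases hR with hR | hR
    · exact Or.inl fun r hr => hR.le (H.al_mem_ch₁ hr)
    · exact Or.inr fun r hr => hR.le (H.al_mem_ch₂ hr)
  have hbe : (∀ r ∈ chart A₀.toSubring x', be r ∈ R) ∨
      (∀ r ∈ chart A₀.toSubring x'⁻¹, be r ∈ R) := by
    rcases hR with hR | hR
    · exact Or.inl fun r hr => hR.le (H.be_mem_ch₁ hr)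
    · exact Or.inr fun r hr => hR.le (H.be_mem_ch₂ hr)
  fin_cases c
  · exact H.through_zero hpt hal hL
  · exact H.through_one hpt hbe hL

end Fermat.Agent.BAD.LevelQ

end
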