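/-
Project BAD, block LevelQ/Pt, sub-block PT-B (helper21): the export to `S44/X/PL` (`IsNode`, `IsSmooth`).
-/
import Fermat.Agent.BAD.LevelQ.Pt.B.Through
import Fermat.Agent.BAD.LevelQ.Pt.B.Local
import Fermat.Agent.BAD.LevelQ.Pt.B.Cusp
import Fermat.Agent.S44.X.PL.Defs

set_option autoImplicit false

noncomputable section

namespace Fermat.Agent.BAD.LevelQ

open Polynomial IntermediateField Fermat.Agent.S18 Fermat.Agent.S36.BP Fermat.Agent.BAD.Model

variable {K₀ F' F : Type*} [Field K₀] [Field F'] [Field F] [Algebra K₀ F'] [Algebra K₀ F]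
variable {A₀ : ValuationSubring K₀} {ϖ₀ : K₀} {q : ℕ} {al be : F' →ₐ[K₀] F} {w : F ≃ₐ[K₀] F}
  {γ : F' →+* F'} {Ow' : ValuationSubring F'} {V : Fin 2 → ValuationSubring F} {x' : F'}
  {R : Subring F}
variable {x y : F} {c : ℕ → ℕ → K₀}

open Fermat.Agent.S44

theorem LQ.unifF (H : LQ A₀ (q : K₀) q al be w γ Ow' V x') (c : Fin 2) : IsUnif (V c) (q : F) := by
  have h := H.unif_all c
  rwa [map_natCast] at h

/-- classification of the closed points lying on the component `V 0`. -/
theorem LQ.classify_zero [CharZero K₀] (hac : IsAlgClosed (IsLocalRing.ResidueField A₀))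
    (H : LQ A₀ (q : K₀) q al be w γ Ow' V x')
    (E : Eta (q : F) V x y) (hx : x ∈ ch₁ A₀ al be x') (hy : y ∈ ch₁ A₀ al be x')
    (C : CuspQ A₀ q V c (al x')⁻¹ (be x')⁻¹) (hR : IsModelPt A₀ (q : K₀) (xx al be x') R)
    (h0 : ∀ r ∈ R, r ∈ V 0) :
    (al x' ∈ R ∧ (PL.IsNode A₀ q R (V 0) (V 1) x y ∨ (PL.IsSmooth A₀ q R (V 0) ∧ RUnit R x))) ∨
      ((al x')⁻¹ ∈ rad R ∧ PL.IsSmooth A₀ q R (V 0)) := by
  have hpt : IsPt A₀ R := hR.isPt H.mChart hac
  have hB : PtBaseM A₀ (q : K₀) V R := hR.ptBaseM H.mChart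
  have hU := H.unif_all
  have E' : Eta (algebraMap K₀ F (q : K₀)) V x y := by rw [map_natCast]; exact E
  have hT0 : Through R (V 0) := H.through hac hR 0 (hB.leLoc_of_le h0)
  have hnA0 : ¬ Away R (V 0) := by
    rintro ⟨e, he, hlt⟩
    exact absurd hlt (he.val_eq_one h0).not_lt
  have hsm : Away R (V 1) → PL.IsSmooth A₀ q R (V 0) := fun hA =>
    { pt := hpt
      thr := hT0
      unif := H.unifF 0
      princ := fun r hr hv => by
        have := hB.princ_smooth hU 0 (fun c' hc' => by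
          have : c' = 1 := by omega
          rw [this]; exact hA) r hr hv
        rwa [map_natCast] at this }
  rcases H.cusp_or hac C hR with hch | ⟨hs, hA⟩
  · left
    have hxR := hch x hx
    have hyR := hch y hy
    refine ⟨hch _ (H.al_mem_ch₁ (self_mem_chart _)), ?_⟩
    rcases hB.leLoc_or_away 1 with hL | hA
    · left
      exact
        { pt := hpt
          thr_a := hT0
          thr_b := H.through hac hR 1 hL
          unif_a := H.unifF 0
          unif_b := H.unifF 1
          x_mem := hxR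
          y_mem := hyR
          mul_eq := E.mul_eq
          x_unit := E.x_unit
          y_unit := E.y_unit
          princ_a := hB.princ_zero hU E' hxR
          princ_b := hB.princ_one hU E' hyR }
    · right
      exact ⟨hsm hA, hB.runit_x E' hxR hyR hA⟩
  · right
    exact ⟨hs, hsm (hA.resolve_left hnA0)⟩

/-- **EXPORT.**  Every valuation ring `VV ⊊ V 0` containing `A₀` (= a place of the residue field of
`V 0`, i.e. of the function field of level `M` in characteristic `q`) is centred at a closed point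
`R` of the model, which is a node `x y = q` or a smooth point where `x` is a unit if `j(z)` is
integral at the place, and a smooth point if `j(z)` has a pole. -/
theorem LQ.exists_point [CharZero K₀] (hac : IsAlgClosed (IsLocalRing.ResidueField A₀))
    (H : LQ A₀ (q : K₀) q al be w γ Ow' V x')
    (E : Eta (q : F) V x y) (hx : x ∈ ch₁ A₀ al be x') (hy : y ∈ ch₁ A₀ al be x')
    (C : CuspQ A₀ q V c (al x')⁻¹ (be x')⁻¹)
    (VV : ValuationSubring F) (hA : ∀ a ∈ A₀, algebraMap K₀ F a ∈ VV) (hle : VV ≤ V 0)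
    (hne : VV ≠ V 0) :
    ∃ R : Subring F, IsModelPt A₀ (q : K₀) (xx al be x') R ∧ Dominates VV R ∧
      (al x' ∈ VV →
        PL.IsNode A₀ q R (V 0) (V 1) x y ∨ (PL.IsSmooth A₀ q R (V 0) ∧ RUnit R x)) ∧
      (al x' ∉ VV → PL.IsSmooth A₀ q R (V 0)) := by
  obtain ⟨R, hR, hd⟩ := H.mChart.proper VV hA 0 hle hne
  refine ⟨R, hR, hd, ?_⟩
  rcases H.classify_zero hac E hx hy C hR (fun r hr => hle (hd.1 r hr)) with ⟨h1, h2⟩ | ⟨h1, h2⟩
  · exact ⟨fun _ => h2, fun h => absurd (hd.1 _ h1) h⟩
  · refine ⟨fun h => ?_, fun _ => h2⟩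
    exfalso
    have h3 := hd.2 _ h1
    have h4 := (VV.valuation_le_one_iff _).2 h
    have h5 : VV.valuation ((al x')⁻¹ * al x') < 1 := by
      rw [map_mul]
      exact mul_lt_one_of_lt_of_le h3 h4
    rw [inv_mul_cancel₀ (fun h => C.ne (by rw [h, inv_zero])), map_one] at h5
    exact lt_irrefl _ h5

end Fermat.Agent.BAD.LevelQ

end
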