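/-
Project BAD, block LevelQ/Pt, sub-block PT-B (helper21): `CuspQ` from the hub `LQ` and the modular
equation: Kronecker's congruences on the two components follow from `LQ.kron`, `LQ.γ_x` and the
Atkin-Lehner symmetry.
-/
import Fermat.Agent.BAD.LevelQ.Pt.B.Defs
import Fermat.Agent.BAD.LevelQ.Hub.Basic
import Fermat.Agent.BAD.LevelQ.Hub.Sym

set_option autoImplicit false

noncomputable section

namespace Fermat.Agent.BAD.LevelQ

open Polynomial IntermediateField Fermat.Agent.S18 Fermat.Agent.S36.BP Fermat.Agent.BAD.Model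

variable {K₀ F' F : Type*} [Field K₀] [Field F'] [Field F] [Algebra K₀ F'] [Algebra K₀ F]
variable {A₀ : ValuationSubring K₀} {ϖ₀ : K₀} {q : ℕ} {al be : F' →ₐ[K₀] F} {w : F ≃ₐ[K₀] F}
  {γ : F' →+* F'} {Ow' : ValuationSubring F'} {V : Fin 2 → ValuationSubring F} {x' : F'}

/-- `1/x'(z)^q ≡ 1/x'(q z)` on the component `V 0`. -/
theorem LQ.cor_cong0 (H : LQ A₀ ϖ₀ q al be w γ Ow' V x') :
    (V 0).valuation ((al x')⁻¹ ^ q / (be x')⁻¹ - 1) < 1 := by
  have h1 := H.kron x' H.coord'.mem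
  rw [H.γ_x] at h1
  have ha : (V 0).valuation (al x') = 1 := (H.isMCoord_al 0).valuation_eq_one
  have ha0 : al x' ≠ 0 := (H.isMCoord_al 0).ne_zero
  have e : (al x')⁻¹ ^ q / (be x')⁻¹ - 1 = (be x' - al x' ^ q) * (al x' ^ q)⁻¹ := by
    have := pow_ne_zero q ha0
    rw [div_inv_eq_mul, inv_pow]
    field_simp
  rw [e, map_mul, map_inv₀, map_pow, ha, one_pow, inv_one, mul_one]
  exact h1

/-- `1/x'(q z)^q ≡ 1/x'(z)` on the component `V 1`. -/
theorem LQ.cor_cong1 (H : LQ A₀ ϖ₀ q al be w γ Ow' V x') :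
    (V 1).valuation ((be x')⁻¹ ^ q / (al x')⁻¹ - 1) < 1 := by
  rw [H.val_one_lt]
  have e : w ((be x')⁻¹ ^ q / (al x')⁻¹ - 1) = (al x')⁻¹ ^ q / (be x')⁻¹ - 1 := by
    rw [map_sub, map_div₀, map_pow, map_inv₀, map_inv₀, H.w_be, H.w_al, map_one]
  rw [e]
  exact H.cor_cong0

/-- **`CuspQ` from the modular equation.** -/
theorem LQ.cuspQ_of_rel (H : LQ A₀ ϖ₀ q al be w γ Ow' V x') {c : ℕ → ℕ → K₀}
    (hc : ∀ a b, c a b ∈ A₀) (h0 : A₀.valuation (c 0 0) = 1)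
    (hrel : Rel q c (al x')⁻¹ (be x')⁻¹) : CuspQ A₀ q V c (al x')⁻¹ (be x')⁻¹ where
  coeff_mem := hc
  coeff_unit := h0
  ne := inv_ne_zero (H.isMCoord_al 0).ne_zero
  ne' := inv_ne_zero (H.isMCoord_be 0).ne_zero
  rel := hrel
  cong0 := H.cor_cong0
  cong1 := H.cor_cong1

end Fermat.Agent.BAD.LevelQ

end
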