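/-
Project BAD, block LevelQ/Pt, sub-block PT-B (helper21): an element integral at all the places of the residue field of `W` is constant.
-/
import Fermat.Agent.BAD.LevelQ.Pt.B.Defs
import Fermat.Agent.BAD.LevelQ.Abs.Valuative

set_option autoImplicit false

noncomputable section

namespace Fermat.Agent.BAD.LevelQ

open Polynomial IntermediateField Fermat.Agent.S18 Fermat.Agent.S36.BP Fermat.Agent.BAD.Model

variable {K₀ F' F : Type*} [Field K₀] [Field F'] [Field F] [Algebra K₀ F'] [Algebra K₀ F]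
variable {A₀ : ValuationSubring K₀} {ϖ₀ : K₀} {q : ℕ} {al be : F' →ₐ[K₀] F} {w : F ≃ₐ[K₀] F}
  {γ : F' →+* F'} {Ow' : ValuationSubring F'} {V : Fin 2 → ValuationSubring F} {x' : F'}
  {R : Subring F}

/-- a valuation ring containing the maximal ideal of `W` is comparable with `W`. -/
theorem valuationSubring_le_or_le {W VV : ValuationSubring F}
    (h : ∀ y, W.valuation y < 1 → y ∈ VV) : VV ≤ W ∨ W ≤ VV := by
  by_cases hle : VV ≤ W
  · exact Or.inl hle
  · right
    obtain ⟨y, hyV, hyW⟩ := SetLike.not_le_iff_exists.1 hle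
    have hy0 : y ≠ 0 := by
      rintro rfl
      exact hyW W.zero_mem
    have hy1 : W.valuation y⁻¹ < 1 := by
      rw [map_inv₀]
      have h1 : 1 < W.valuation y := by
        rw [← not_le, W.valuation_le_one_iff]
        exact hyW
      exact inv_lt_one_of_one_lt₀ h1
    intro u hu
    have h1 : W.valuation (u * y⁻¹) < 1 := by
      rw [map_mul]
      exact lt_of_le_of_lt (mul_le_mul' ((W.valuation_le_one_iff u).2 hu) le_rfl)
        (by rwa [one_mul])
    have h2 := VV.mul_mem _ _ (h _ h1) hyV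
    rwa [mul_assoc, inv_mul_cancel₀ hy0, mul_one] at h2

private theorem calg_mul_lt {W : ValuationSubring F} {x y : F} (hx : W.valuation x < 1)
    (hy : y ∈ W) : W.valuation (x * y) < 1 := by
  rw [map_mul]
  exact lt_of_le_of_lt (mul_le_mul' le_rfl ((W.valuation_le_one_iff y).2 hy)) (by rwa [mul_one])

private theorem calg_mem_of_lt {W : ValuationSubring F} {x : F} (hx : W.valuation x < 1) :
    x ∈ W := (W.valuation_le_one_iff x).1 hx.le

/-- the ring `A₀ + 𝔪_W`. -/
def calg_S (A₀ : ValuationSubring K₀) (W : ValuationSubring F)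
    (hc : ∀ a ∈ A₀, algebraMap K₀ F a ∈ W) : Subring F where
  carrier := {z | ∃ a ∈ A₀, W.valuation (z - algebraMap K₀ F a) < 1}
  mul_mem' := by
    rintro x y ⟨a, ha, hx⟩ ⟨b, hb, hy⟩
    refine ⟨a * b, A₀.mul_mem _ _ ha hb, ?_⟩
    have hyW : y ∈ W := by
      have h1 := W.add_mem _ _ (calg_mem_of_lt hy) (hc b hb)
      rwa [sub_add_cancel] at h1
    have h2 : x * y - algebraMap K₀ F (a * b) =
        (x - algebraMap K₀ F a) * y + (y - algebraMap K₀ F b) * algebraMap K₀ F a := by
      rw [map_mul]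
      ring
    rw [h2]
    exact Valuation.map_add_lt _ (calg_mul_lt hx hyW) (calg_mul_lt hy (hc a ha))
  one_mem' := ⟨1, A₀.one_mem, by simp⟩
  add_mem' := by
    rintro x y ⟨a, ha, hx⟩ ⟨b, hb, hy⟩
    refine ⟨a + b, A₀.add_mem _ _ ha hb, ?_⟩
    have h2 : x + y - algebraMap K₀ F (a + b) =
        (x - algebraMap K₀ F a) + (y - algebraMap K₀ F b) := by
      rw [map_add]
      ring
    rw [h2]
    exact Valuation.map_add_lt _ hx hy
  zero_mem' := ⟨0, A₀.zero_mem, by simp⟩
  neg_mem' := by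
    rintro x ⟨a, ha, hx⟩
    refine ⟨-a, A₀.neg_mem _ ha, ?_⟩
    have h2 : -x - algebraMap K₀ F (-a) = -(x - algebraMap K₀ F a) := by
      rw [map_neg]
      ring
    rw [h2, Valuation.map_neg]
    exact hx

/-- integrality over `A₀ + 𝔪_W`. -/
theorem exists_monic_of_forall_mem {W : ValuationSubring F}
    (hc : ∀ a ∈ A₀, algebraMap K₀ F a ∈ W) {f : F}
    (hf : ∀ VV : ValuationSubring F, (∀ a ∈ A₀, algebraMap K₀ F a ∈ VV) →
      (∀ y, W.valuation y < 1 → y ∈ VV) → f ∈ VV) :
    ∃ P : K₀[X], P.Monic ∧ (∀ i, P.coeff i ∈ A₀) ∧ W.valuation (aeval f P) < 1 := by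
  have hfW : f ∈ W := hf W hc fun y hy => calg_mem_of_lt hy
  have hint : f ∈ (integralClosure (calg_S A₀ W hc) F).toSubring := by
    have key := iInf_valuationSubring_superset (K := F) (s := (calg_S A₀ W hc : Set F))
    rw [Subring.closure_eq] at key
    rw [← key, Subring.mem_iInf]
    rintro ⟨VV, hVV⟩
    exact hf VV (fun a ha => hVV ⟨a, ha, by simp⟩)
      (fun y hy => hVV ⟨0, A₀.zero_mem, by simpa using hy⟩)
  obtain ⟨Q, hQ, hQf⟩ : IsIntegral (calg_S A₀ W hc) f := hint
  have hch : ∀ i : ℕ, ∃ a ∈ A₀, W.valuation ((Q.coeff i : F) - algebraMap K₀ F a) < 1 :=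
    fun i => (Q.coeff i).2
  choose a ha hav using hch
  refine ⟨X ^ Q.natDegree + ∑ i : Fin Q.natDegree, C (a i) * X ^ (i : ℕ),
    monic_X_pow_add (degree_sum_fin_lt fun i : Fin Q.natDegree => a i), fun j => ?_, ?_⟩
  · rw [coeff_add, coeff_X_pow, finsetSum_coeff]
    refine A₀.add_mem _ _ ?_ (A₀.toSubring.sum_mem fun i _ => ?_)
    · split_ifs
      · exact A₀.one_mem
      · exact A₀.zero_mem
    · rw [coeff_C_mul, coeff_X_pow]
      split_ifs
      · rw [mul_one]
        exact ha i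
      · rw [mul_zero]
        exact A₀.zero_mem
  · rw [eval₂_eq_sum_range, Finset.sum_range_succ, hQ.coeff_natDegree, map_one, one_mul,
      Finset.sum_range] at hQf
    have h1 : aeval f (X ^ Q.natDegree + ∑ i : Fin Q.natDegree, C (a i) * X ^ (i : ℕ)) =
        ∑ i : Fin Q.natDegree, -(((Q.coeff i : F) - algebraMap K₀ F (a i)) * f ^ (i : ℕ)) := by
      simp only [map_add, map_pow, aeval_X, map_sum, map_mul, aeval_C]
      have h2 : f ^ Q.natDegree =
          -∑ i : Fin Q.natDegree, algebraMap (calg_S A₀ W hc) F (Q.coeff i) * f ^ (i : ℕ) := by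
        linear_combination hQf
      rw [h2, ← Finset.sum_neg_distrib, ← Finset.sum_add_distrib]
      refine Finset.sum_congr rfl fun i _ => ?_
      change -((Q.coeff i : F) * f ^ (i : ℕ)) + _ = _
      ring
    rw [h1]
    refine Valuation.map_sum_lt _ one_ne_zero fun i _ => ?_
    rw [Valuation.map_neg]
    exact calg_mul_lt (hav i) (W.pow_mem hfW i)

end Fermat.Agent.BAD.LevelQ

end
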