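/-
Project BAD, block LevelQ/Pt, sub-block PT-B (helper21): a root modulo `𝔪_W` of a monic polynomial over `A₀` is constant (algebraically closed residue field).
-/
import Fermat.Agent.BAD.LevelQ.Pt.B.Defs

set_option autoImplicit false

noncomputable section

namespace Fermat.Agent.BAD.LevelQ

open Polynomial IntermediateField Fermat.Agent.S18 Fermat.Agent.S36.BP Fermat.Agent.BAD.Model

variable {K₀ F' F : Type*} [Field K₀] [Field F'] [Field F] [Algebra K₀ F'] [Algebra K₀ F]
variable {A₀ : ValuationSubring K₀} {ϖ₀ : K₀} {q : ℕ} {al be : F' →ₐ[K₀] F} {w : F ≃ₐ[K₀] F}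
  {γ : F' →+* F'} {Ow' : ValuationSubring F'} {V : Fin 2 → ValuationSubring F} {x' : F'}
  {R : Subring F}

/-- the induction, for polynomials over `A₀`. -/
theorem croot_aux (hac : IsAlgClosed (IsLocalRing.ResidueField A₀))
    {W : ValuationSubring F} (hc : ∀ a ∈ A₀, algebraMap K₀ F a ∈ W)
    (hlt : ∀ a : K₀, A₀.valuation a < 1 → W.valuation (algebraMap K₀ F a) < 1) {f : F}
    (hfW : f ∈ W) (n : ℕ) : ∀ P : A₀[X], P.Monic → P.natDegree = n →
      W.valuation (eval₂ ((algebraMap K₀ F).comp A₀.subtype) f P) < 1 →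
      ∃ a ∈ A₀, W.valuation (f - algebraMap K₀ F a) < 1 := by
  induction n with
  | zero =>
    intro P hP hdeg h
    rw [(Monic.natDegree_eq_zero hP).1 hdeg, eval₂_one, map_one] at h
    exact absurd h (lt_irrefl _)
  | succ n ih =>
    intro P hP hdeg h
    have hdeg' : (P.map (IsLocalRing.residue A₀)).degree ≠ 0 := by
      rw [hP.degree_map, degree_eq_natDegree hP.ne_zero, hdeg]
      exact_mod_cast Nat.succ_ne_zero n
    obtain ⟨abar, habar⟩ := IsAlgClosed.exists_root _ hdeg'
    obtain ⟨a, rfl⟩ := IsLocalRing.residue_surjective abar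
    rw [IsRoot.def, eval_map, eval₂_hom] at habar
    have hev : A₀.valuation ((P.eval a : A₀) : K₀) < 1 :=
      (A₀.valuation_lt_one_iff _).1 ((IsLocalRing.residue_eq_zero_iff _).1 habar)
    have hev' := hlt _ hev
    have hdecomp : P = C (P.eval a) + (X - C a) * (P /ₘ (X - C a)) := by
      conv_lhs => rw [← modByMonic_add_div P (X - C a)]
      rw [modByMonic_X_sub_C_eq_C_eval]
    have hQmonic : (P /ₘ (X - C a)).Monic := by
      have hd0 : P.degree ≠ 0 := by
        rw [degree_eq_natDegree hP.ne_zero, hdeg]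
        exact_mod_cast Nat.succ_ne_zero n
      rw [Monic, leadingCoeff_divByMonic_X_sub_C P hd0 a]
      exact hP
    have hQdeg : (P /ₘ (X - C a)).natDegree = n := by
      rw [natDegree_divByMonic P (monic_X_sub_C a), natDegree_X_sub_C, hdeg]
      rfl
    have heval : eval₂ ((algebraMap K₀ F).comp A₀.subtype) f P =
        algebraMap K₀ F ((P.eval a : A₀) : K₀) + (f - algebraMap K₀ F (a : K₀)) *
          eval₂ ((algebraMap K₀ F).comp A₀.subtype) f (P /ₘ (X - C a)) := by
      conv_lhs => rw [hdecomp]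
      rw [eval₂_add, eval₂_mul, eval₂_sub, eval₂_C, eval₂_X, eval₂_C]
      rfl
    have hprod : W.valuation ((f - algebraMap K₀ F (a : K₀)) *
        eval₂ ((algebraMap K₀ F).comp A₀.subtype) f (P /ₘ (X - C a))) < 1 := by
      have h1 : (f - algebraMap K₀ F (a : K₀)) *
          eval₂ ((algebraMap K₀ F).comp A₀.subtype) f (P /ₘ (X - C a)) =
          eval₂ ((algebraMap K₀ F).comp A₀.subtype) f P -
            algebraMap K₀ F ((P.eval a : A₀) : K₀) := by
        rw [heval]; ring
      rw [h1]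
      exact W.valuation.map_sub_lt h hev'
    by_cases hfa : W.valuation (f - algebraMap K₀ F (a : K₀)) < 1
    · exact ⟨a, a.2, hfa⟩
    · have hle : W.valuation (f - algebraMap K₀ F (a : K₀)) ≤ 1 :=
        (W.valuation_le_one_iff _).2 (W.sub_mem hfW (hc _ a.2))
      have heq : W.valuation (f - algebraMap K₀ F (a : K₀)) = 1 :=
        le_antisymm hle (not_lt.1 hfa)
      rw [map_mul, heq, one_mul] at hprod
      exact ih _ hQmonic hQdeg hprod

/-- a root modulo `𝔪_W` of a monic polynomial over `A₀` is constant modulo `𝔪_W`. -/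
theorem exists_const_of_monic (hac : IsAlgClosed (IsLocalRing.ResidueField A₀))
    {W : ValuationSubring F} (hc : ∀ a ∈ A₀, algebraMap K₀ F a ∈ W)
    (hlt : ∀ a : K₀, A₀.valuation a < 1 → W.valuation (algebraMap K₀ F a) < 1) {f : F}
    (hfW : f ∈ W) {P : K₀[X]} (hP : P.Monic) (hPc : ∀ i, P.coeff i ∈ A₀)
    (h : W.valuation (aeval f P) < 1) :
    ∃ a ∈ A₀, W.valuation (f - algebraMap K₀ F a) < 1 := by
  have hl : P ∈ lifts A₀.subtype := by
    rw [lifts_iff_coeff_lifts]
    intro i
    exact ⟨⟨P.coeff i, hPc i⟩, rfl⟩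
  obtain ⟨Q, hQ, -, hQm⟩ := lifts_and_natDegree_eq_and_monic hl hP
  refine croot_aux hac hc hlt hfW Q.natDegree Q hQm rfl ?_
  rw [← eval₂_map, hQ]
  exact h

end Fermat.Agent.BAD.LevelQ

end
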