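/-
Project BAD, block LevelQ/Pt, sub-block PT-B (helper21): a function on a component which is regular at all the closed points is constant.
-/
import Fermat.Agent.BAD.LevelQ.Pt.B.ConstAlg
import Fermat.Agent.BAD.LevelQ.Pt.B.ConstRoot
import Fermat.Agent.BAD.LevelQ.Pt.Main

set_option autoImplicit false

noncomputable section

namespace Fermat.Agent.BAD.LevelQ

open Polynomial IntermediateField Fermat.Agent.S18 Fermat.Agent.S36.BP Fermat.Agent.BAD.Model

variable {K₀ F' F : Type*} [Field K₀] [Field F'] [Field F] [Algebra K₀ F'] [Algebra K₀ F]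
variable {A₀ : ValuationSubring K₀} {ϖ₀ : K₀} {q : ℕ} {al be : F' →ₐ[K₀] F} {w : F ≃ₐ[K₀] F}
  {γ : F' →+* F'} {Ow' : ValuationSubring F'} {V : Fin 2 → ValuationSubring F} {x' : F'}
  {R : Subring F}
variable {ι : Type*} {W : ι → ValuationSubring F} {z : F}

theorem MChart.const_of_regular [CharZero K₀] [Finite ι] [Nonempty ι] (H : MChart A₀ ϖ₀ W z)
    (hac : IsAlgClosed (IsLocalRing.ResidueField A₀)) (c : ι) {f : F} (hf : f ∈ W c)
    (hreg : ∀ R, IsModelPt A₀ ϖ₀ z R → LeLoc R (W c) → ∃ ρ ∈ R, (W c).valuation (f - ρ) < 1) :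
    ∃ a ∈ A₀, (W c).valuation (f - algebraMap K₀ F a) < 1 := by
  have hc : ∀ a ∈ A₀, algebraMap K₀ F a ∈ W c := H.vert.const_mem c
  have hlt : ∀ a : K₀, A₀.valuation a < 1 → (W c).valuation (algebraMap K₀ F a) < 1 := by
    intro a ha
    have h1 : a / ϖ₀ ∈ A₀ := CoordAux.div_mem_of_valuation_lt_one H.vert.unif₀ ha
    have h2 : a = ϖ₀ * (a / ϖ₀) := by
      have := H.vert.unif₀.ne_zero
      field_simp
    rw [h2, map_mul, map_mul]
    exact mul_lt_one_of_lt_of_le (H.vert.lt_one c) (((W c).valuation_le_one_iff _).2 (hc _ h1))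
  have key : ∀ VV : ValuationSubring F, (∀ a ∈ A₀, algebraMap K₀ F a ∈ VV) →
      (∀ y, (W c).valuation y < 1 → y ∈ VV) → f ∈ VV := by
    intro VV hA hm
    rcases valuationSubring_le_or_le hm with hle | hle
    · by_cases hne : VV = W c
      · rw [hne]; exact hf
      · obtain ⟨R, hR, hd⟩ := H.proper VV hA c hle hne
        obtain ⟨ρ, hρ, hv⟩ := hreg R hR ((hR.ptBaseM H).leLoc_of_dominates hle hd)
        have h1 : f - ρ ∈ VV := hm _ hv
        have h2 : ρ ∈ VV := hd.1 ρ hρ
        have h3 : f = (f - ρ) + ρ := by ring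
        rw [h3]
        exact VV.add_mem _ _ h1 h2
    · exact hle hf
  obtain ⟨P, hP, hPc, h⟩ := exists_monic_of_forall_mem hc key
  exact exists_const_of_monic hac hc hlt hf hP hPc h

end Fermat.Agent.BAD.LevelQ

end
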