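/-
Project BAD, block LevelQ/Pt, sub-block PT-B (helper21): the order on a branch through a point.
-/
import Fermat.Agent.BAD.LevelQ.Pt.B.Defs
import Fermat.Agent.S36.BP.Rad
import Fermat.Agent.S36.BP.Cong
import Fermat.Agent.S36.BP.Normal
import Fermat.Agent.S36.BP.Datum

set_option autoImplicit false

noncomputable section

namespace Fermat.Agent.BAD.LevelQ

open Polynomial IntermediateField Fermat.Agent.S18 Fermat.Agent.S36.BP Fermat.Agent.BAD.Model

variable {K₀ F' F : Type*} [Field K₀] [Field F'] [Field F] [Algebra K₀ F'] [Algebra K₀ F]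
variable {A₀ : ValuationSubring K₀} {ϖ₀ : K₀} {q : ℕ} {al be : F' →ₐ[K₀] F} {w : F ≃ₐ[K₀] F}
  {γ : F' →+* F'} {Ow' : ValuationSubring F'} {V : Fin 2 → ValuationSubring F} {x' : F'}
  {R : Subring F}

/-- Krull intersection on the branch: an element of `R` which is divisible by all powers of `t`
modulo `𝔪_W` lies in `𝔪_W`. -/
private theorem bord_krull (hR : IsPt A₀ R) {W : ValuationSubring F}
    (hle : ∀ r ∈ R, r ∈ W) {t : F} (ht : t ∈ rad R) {a : F} (ha : a ∈ R)
    (h : ∀ k : ℕ, ∃ s ∈ R, W.valuation (a - s * t ^ k) < 1) : W.valuation a < 1 := by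
  classical
  have := hR.isLocalRing
  have := hR.noeth
  let f : R →+* W := Subring.inclusion (show R ≤ W.toSubring from hle)
  let P : Ideal R := (IsLocalRing.maximalIdeal W).comap f
  have hPp : P.IsPrime := Ideal.comap_isPrime f _
  have hP : ∀ r : R, r ∈ P ↔ W.valuation (r : F) < 1 := fun r => by
    rw [Ideal.mem_comap, ValuationSubring.valuation_lt_one_iff]
    rfl
  have : IsLocalRing (R ⧸ P) :=
    IsLocalRing.of_surjective' (Ideal.Quotient.mk P) Ideal.Quotient.mk_surjective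
  have hPle : P ≤ IsLocalRing.maximalIdeal R := IsLocalRing.le_maximalIdeal hPp.ne_top
  have hxm : Ideal.Quotient.mk P ⟨t, ht.1⟩ ∈ IsLocalRing.maximalIdeal (R ⧸ P) := by
    rw [IsLocalRing.mem_maximalIdeal, mem_nonunits_iff]
    intro hu
    obtain ⟨b', hb'⟩ := isUnit_iff_exists_inv.1 hu
    obtain ⟨b, rfl⟩ := Ideal.Quotient.mk_surjective b'
    rw [← map_mul, ← map_one (Ideal.Quotient.mk P), Ideal.Quotient.eq] at hb'
    have h1 : (⟨t, ht.1⟩ : R) ∈ IsLocalRing.maximalIdeal R := by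
      rw [IsLocalRing.mem_maximalIdeal, mem_nonunits_iff, ← mem_rad_iff_not_isUnit]
      exact ht
    have h2 : (1 : R) ∈ IsLocalRing.maximalIdeal R := by
      have := (IsLocalRing.maximalIdeal R).sub_mem
        ((IsLocalRing.maximalIdeal R).mul_mem_right b h1) (hPle hb')
      simp at this
    exact (Ideal.ne_top_iff_one _).1 (IsLocalRing.maximalIdeal.isMaximal R).ne_top h2
  have hbot := Ideal.iInf_pow_eq_bot_of_isLocalRing (IsLocalRing.maximalIdeal (R ⧸ P))
    (IsLocalRing.maximalIdeal.isMaximal _).ne_top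
  have hmem : Ideal.Quotient.mk P ⟨a, ha⟩ ∈ ⨅ i : ℕ, IsLocalRing.maximalIdeal (R ⧸ P) ^ i := by
    rw [Ideal.mem_iInf]
    intro k
    obtain ⟨s, hs, hlt⟩ := h k
    have e1 : Ideal.Quotient.mk P ⟨a, ha⟩ =
        Ideal.Quotient.mk P ⟨s, hs⟩ * Ideal.Quotient.mk P ⟨t, ht.1⟩ ^ k := by
      rw [← map_pow, ← map_mul, Ideal.Quotient.eq, hP]
      exact hlt
    rw [e1]
    exact Ideal.mul_mem_left _ _ (Ideal.pow_mem_pow hxm k)
  rw [hbot, Ideal.mem_bot, Ideal.Quotient.eq_zero_iff_mem, hP] at hmem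
  exact hmem

/-- `R / (R ∩ 𝔪_W)` is a discrete valuation ring with uniformiser `t`: every element of `R` which
is a unit of `W` is `ρ t ^ k` modulo `𝔪_W`, `ρ` a unit of `R`. -/
theorem exists_unit_mul_pow_of_dvr (hR : IsPt A₀ R) {W : ValuationSubring F}
    (hle : ∀ r ∈ R, r ∈ W) {t : F} (ht : t ∈ rad R)
    (hdvr : ∀ y ∈ rad R, ∃ r ∈ R, W.valuation (y - r * t) < 1) {a : F} (ha : a ∈ R)
    (ha1 : W.valuation a = 1) :
    ∃ (k : ℕ) (ρ : F), RUnit R ρ ∧ W.valuation (a - ρ * t ^ k) < 1 := by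
  classical
  have hex : ∃ k : ℕ, ¬ ∃ s ∈ R, W.valuation (a - s * t ^ k) < 1 := by
    by_contra hcon
    push Not at hcon
    have := bord_krull hR hle ht ha hcon
    rw [ha1] at this
    exact lt_irrefl _ this
  have hk0 : Nat.find hex ≠ 0 := by
    intro h0
    have := Nat.find_spec hex
    rw [h0] at this
    exact this ⟨a, ha, by simp⟩
  obtain ⟨k, hk⟩ := Nat.exists_eq_succ_of_ne_zero hk0
  have hlt : k < Nat.find hex := by omega
  have h1 := Nat.find_min hex hlt
  rw [not_not] at h1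
  obtain ⟨s, hs, hsa⟩ := h1
  refine ⟨k, s, ?_, hsa⟩
  by_contra hnu
  obtain ⟨s', hs', hlt'⟩ := hdvr s ⟨hs, hnu⟩
  apply Nat.find_spec hex
  rw [hk]
  refine ⟨s', hs', ?_⟩
  have htk : W.valuation (t ^ k) ≤ 1 :=
    (W.valuation_le_one_iff _).2 (W.pow_mem (hle t ht.1) k)
  have h2 : W.valuation ((s - s' * t) * t ^ k) < 1 := by
    rw [map_mul]
    exact mul_lt_one_of_lt_of_le hlt' htk
  have h3 : a - s' * t ^ (k + 1) = (a - s * t ^ k) + (s - s' * t) * t ^ k := by ring
  rw [h3]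
  exact lt_of_le_of_lt (W.valuation.map_add _ _) (max_lt hsa h2)

end Fermat.Agent.BAD.LevelQ

end
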