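/-
Project BAD, block LevelQ/Pt, sub-block PT-B (helper21): the local form of `LQ.rad₁`, `LQ.rad₂`.
-/
import Fermat.Agent.BAD.LevelQ.Pt.B.LQ
import Fermat.Agent.BAD.LevelQ.Hub.Rad
import Fermat.Agent.S36.BP.Loc.Basic

set_option autoImplicit false

noncomputable section

namespace Fermat.Agent.BAD.LevelQ

open Polynomial IntermediateField Fermat.Agent.S18 Fermat.Agent.S36.BP Fermat.Agent.BAD.Model

variable {K₀ F' F : Type*} [Field K₀] [Field F'] [Field F] [Algebra K₀ F'] [Algebra K₀ F]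
variable {A₀ : ValuationSubring K₀} {ϖ₀ : K₀} {q : ℕ} {al be : F' →ₐ[K₀] F} {w : F ≃ₐ[K₀] F}
  {γ : F' →+* F'} {Ow' : ValuationSubring F'} {V : Fin 2 → ValuationSubring F} {x' : F'}
  {R : Subring F}

/-- abstract form: localisation of the radical condition. -/
theorem radloc_abs {L : Type*} [Field L] (B : Subring L) (𝔫 : Ideal B) [𝔫.IsPrime]
    (W W' : ValuationSubring L)
    (hL : ∀ r ∈ locSub B 𝔫, r ∈ W) (hL' : ∀ r ∈ locSub B 𝔫, r ∈ W')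
    (hrad : ∀ f ∈ B, ∀ m : ℕ, (∃ g ∈ B, W'.valuation g < 1 ∧ W.valuation (f ^ m - g) < 1) →
      ∃ g ∈ B, W'.valuation g < 1 ∧ W.valuation (f - g) < 1) :
    ∀ f ∈ locSub B 𝔫, ∀ m : ℕ, m ≠ 0 →
      (∃ g ∈ locSub B 𝔫, W'.valuation g < 1 ∧ W.valuation (f ^ m - g) < 1) →
      ∃ g ∈ locSub B 𝔫, W'.valuation g < 1 ∧ W.valuation (f - g) < 1 := by
  rintro f ⟨a, s, hs, ha⟩ m hm ⟨g, ⟨b, s₂, hs₂, hb⟩, hg', hfg⟩
  have hd : s * s₂ ∉ 𝔫 := fun h => (Ideal.IsPrime.mem_or_mem ‹_› h).elim hs hs₂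
  set d : L := ((s * s₂ : B) : L) with hdd
  have hd0 : d ≠ 0 := coe_ne_zero_of_notMem hd
  have hdR : d ∈ locSub B 𝔫 := le_locSub (s * s₂ : B).2
  have hdinv : d⁻¹ ∈ locSub B 𝔫 := inv_mem_locSub hd
  have hdW : W.valuation d = 1 :=
    Loc.valuation_eq_one_of_mem_of_inv_mem W (hL _ hdR) (hL _ hdinv) hd0
  have hdW' : W'.valuation d = 1 :=
    Loc.valuation_eq_one_of_mem_of_inv_mem W' (hL' _ hdR) (hL' _ hdinv) hd0
  have hde : d = (s : L) * (s₂ : L) := by rw [hdd]; push_cast; rfl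
  have ha₁ : ((a * s₂ : B) : L) = f * d := by
    push_cast
    rw [hde, ← ha]
    ring
  obtain ⟨m', rfl⟩ := Nat.exists_eq_succ_of_ne_zero hm
  have hG : ((b * s * (s * s₂) ^ m' : B) : L) = g * d ^ (m' + 1) := by
    push_cast
    rw [hde, ← hb]
    ring
  obtain ⟨g', hg'B, hg'W', hg'W⟩ := hrad ((a * s₂ : B) : L) (a * s₂ : B).2 (m' + 1)
    ⟨((b * s * (s * s₂) ^ m' : B) : L), (b * s * (s * s₂) ^ m' : B).2, by
      rw [hG, map_mul, map_pow, hdW', one_pow, mul_one]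
      exact hg', by
      have e : ((a * s₂ : B) : L) ^ (m' + 1) - ((b * s * (s * s₂) ^ m' : B) : L) =
          (f ^ (m' + 1) - g) * d ^ (m' + 1) := by
        rw [ha₁, hG]
        ring
      rw [e, map_mul, map_pow, hdW, one_pow, mul_one]
      exact hfg⟩
  refine ⟨g' * d⁻¹, Subring.mul_mem _ (le_locSub hg'B) hdinv, ?_, ?_⟩
  · rw [map_mul, map_inv₀, hdW', inv_one, mul_one]
    exact hg'W'
  · have e : f - g' * d⁻¹ = (((a * s₂ : B) : L) - g') * d⁻¹ := by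
      rw [ha₁]
      field_simp
    rw [e, map_mul, map_inv₀, hdW, inv_one, mul_one]
    exact hg'W

/-- At a point `R` lying on both components, the image in `R / P_c` of the ideal `P_c'` is
radical. -/
theorem LQ.rad_loc (H : LQ A₀ ϖ₀ q al be w γ Ow' V x') (hR : IsModelPt A₀ ϖ₀ (xx al be x') R)
    (c c' : Fin 2) (hc : c ≠ c') (hL : ∀ r ∈ R, r ∈ V c) (hL' : ∀ r ∈ R, r ∈ V c') :
    ∀ f ∈ R, ∀ m : ℕ, m ≠ 0 →
      (∃ g ∈ R, (V c').valuation g < 1 ∧ (V c).valuation (f ^ m - g) < 1) →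
      ∃ g ∈ R, (V c').valuation g < 1 ∧ (V c).valuation (f - g) < 1 := by
  rcases hR with ⟨𝔫, h, -, rfl⟩ | ⟨𝔫, h, -, rfl⟩
  · exact radloc_abs _ 𝔫 (V c) (V c') hL hL' (H.rad₁ c c' hc)
  · exact radloc_abs _ 𝔫 (V c) (V c') hL hL' (H.rad₂ c c' hc)

end Fermat.Agent.BAD.LevelQ

end
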