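/-
Project BAD, block LevelQ/Pt, sub-block PT-B (helper21): the two components cross transversally.
-/
import Fermat.Agent.BAD.LevelQ.Pt.B.Through
import Fermat.Agent.BAD.LevelQ.Pt.B.RadLoc
import Fermat.Agent.BAD.LevelQ.Pt.B.BranchOrd
import Fermat.Agent.BAD.LevelQ.Abs.Loc

set_option autoImplicit false

noncomputable section

namespace Fermat.Agent.BAD.LevelQ

open Polynomial IntermediateField Fermat.Agent.S18 Fermat.Agent.S36.BP Fermat.Agent.BAD.Model

variable {K₀ F' F : Type*} [Field K₀] [Field F'] [Field F] [Algebra K₀ F'] [Algebra K₀ F]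
variable {A₀ : ValuationSubring K₀} {ϖ₀ : K₀} {q : ℕ} {al be : F' →ₐ[K₀] F} {w : F ≃ₐ[K₀] F}
  {γ : F' →+* F'} {Ow' : ValuationSubring F'} {V : Fin 2 → ValuationSubring F} {x' : F'}
  {R : Subring F}

/-- one half: the local parameter of the branch `V c` can be chosen in `P_c'`. -/
theorem LQ.transversal_aux [CharZero K₀] (hac : IsAlgClosed (IsLocalRing.ResidueField A₀))
    (H : LQ A₀ ϖ₀ q al be w γ Ow' V x') (hR : IsModelPt A₀ ϖ₀ (xx al be x') R)
    (c c' : Fin 2) (hc : c ≠ c') (hL : LeLoc R (V c)) (hL' : LeLoc R (V c')) :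
    ∀ r ∈ rad R, ∃ b ∈ R, (V c').valuation b < 1 ∧ (V c).valuation (r - b) < 1 := by
  have hpt : IsPt A₀ R := hR.isPt H.mChart hac
  obtain ⟨t, ht, hdvr⟩ := (H.through hac hR c hL).dvr
  obtain ⟨e, he, he1, he2⟩ := H.sep c c' hc
  obtain ⟨s, hs, hs1, hse⟩ := hL.2 e (he c)
  have hle' : ∀ a ∈ R, (V c').valuation a ≤ 1 := fun a ha =>
    (ValuationSubring.valuation_le_one_iff _ _).2 (hL'.1 a ha)
  have hle : ∀ a ∈ R, (V c).valuation a ≤ 1 := fun a ha =>
    (ValuationSubring.valuation_le_one_iff _ _).2 (hL.1 a ha)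
  have hmul' : ∀ a ∈ R, ∀ b : F, (V c').valuation b < 1 → (V c').valuation (a * b) < 1 := by
    intro a ha b hb
    rw [map_mul]
    exact lt_of_le_of_lt (mul_le_of_le_one_left' (hle' a ha)) hb
  have hmul : ∀ a ∈ R, ∀ b : F, (V c).valuation b < 1 → (V c).valuation (a * b) < 1 := by
    intro a ha b hb
    rw [map_mul]
    exact lt_of_le_of_lt (mul_le_of_le_one_left' (hle a ha)) hb
  have hg1 : (V c).valuation (s * e) = 1 := by rw [map_mul, hs1, he1, one_mul]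
  have hg2 : (V c').valuation (s * e) < 1 := hmul' s hs e he2
  have hg0rad : s * e ∈ rad R := mem_rad_of_val_lt hL'.1 hse hg2
  obtain ⟨k, ρ, hρ, hk⟩ := exists_unit_mul_pow_of_dvr hpt hL.1 ht hdvr hse hg1
  have hk0 : k ≠ 0 := by
    rintro rfl
    rw [pow_zero, mul_one] at hk
    have h1 : s * e - ρ ∈ rad R := mem_rad_of_val_lt hL.1 (R.sub_mem hse hρ.2.1) hk
    have h2 := DatumAux.sub_mem_rad hpt hg0rad h1
    rw [sub_sub_cancel] at h2
    exact h2.2 hρ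
  have h3 : (V c).valuation (t ^ k - ρ⁻¹ * (s * e)) < 1 := by
    have h4 : t ^ k - ρ⁻¹ * (s * e) = -(ρ⁻¹ * (s * e - ρ * t ^ k)) := by
      have := hρ.1
      field_simp
      ring
    rw [h4, Valuation.map_neg]
    exact hmul _ hρ.2.2 _ hk
  obtain ⟨g, hg, hg', hgt⟩ := H.rad_loc hR c c' hc hL.1 hL'.1 t ht.1 k hk0
    ⟨ρ⁻¹ * (s * e), R.mul_mem hρ.2.2 hse, hmul' _ hρ.2.2 _ hg2, h3⟩
  intro r hr
  obtain ⟨s', hs', hrs⟩ := hdvr r hr
  refine ⟨s' * g, R.mul_mem hs' hg, hmul' _ hs' _ hg', ?_⟩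
  have h5 : r - s' * g = (r - s' * t) + s' * (t - g) := by ring
  rw [h5]
  exact Valuation.map_add_lt _ hrs (hmul _ hs' _ hgt)

/-- **Transversality**: at a point on both components, `rad R = P_0 + P_1`. -/
theorem LQ.transversal [CharZero K₀] (hac : IsAlgClosed (IsLocalRing.ResidueField A₀))
    (H : LQ A₀ ϖ₀ q al be w γ Ow' V x') (hR : IsModelPt A₀ ϖ₀ (xx al be x') R)
    (h0 : LeLoc R (V 0)) (h1 : LeLoc R (V 1)) :
    ∀ r ∈ rad R, ∃ a ∈ R, ∃ b ∈ R, (V 0).valuation a < 1 ∧ (V 1).valuation b < 1 ∧ r = a + b := by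
  intro r hr
  obtain ⟨b, hb, hb1, hb0⟩ := H.transversal_aux hac hR 0 1 (by decide) h0 h1 r hr
  exact ⟨r - b, R.sub_mem hr.1 hb, b, hb, hb0, hb1, by ring⟩

end Fermat.Agent.BAD.LevelQ

end
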