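/-
Project BAD, block LevelQ/Pt, sub-block PT-B (helper21): the export to `S44/Depth` (`IsSm`, `IsNode`, `NodalModel` at `e = 1`).
-/
import Fermat.Agent.BAD.LevelQ.Pt.B.Through
import Fermat.Agent.BAD.LevelQ.Pt.B.Local
import Fermat.Agent.BAD.LevelQ.Pt.B.Cusp
import Fermat.Agent.BAD.LevelQ.Pt.B.Transversal
import Fermat.Agent.BAD.LevelQ.Pt.B.Regular
import Fermat.Agent.S44.Depth.Defs

set_option autoImplicit false

noncomputable section

namespace Fermat.Agent.BAD.LevelQ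

open Polynomial IntermediateField Fermat.Agent.S18 Fermat.Agent.S36.BP Fermat.Agent.BAD.Model

variable {K₀ F' F : Type*} [Field K₀] [Field F'] [Field F] [Algebra K₀ F'] [Algebra K₀ F]
variable {A₀ : ValuationSubring K₀} {ϖ₀ : K₀} {q : ℕ} {al be : F' →ₐ[K₀] F} {w : F ≃ₐ[K₀] F}
  {γ : F' →+* F'} {Ow' : ValuationSubring F'} {V : Fin 2 → ValuationSubring F} {x' : F'}
  {R : Subring F}
variable {x y : F} {c : ℕ → ℕ → K₀}

open Fermat.Agent.S44

/-- the field `fin` of `Depth.IsNode` (provided by helper219's block FIN). -/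
def FinAt (A₀ : ValuationSubring K₀) (R : Subring F) : Prop :=
  ∀ W : ValuationSubring F, Depth.Hor K₀ R W → ∃ S : Finset F, (∀ s ∈ S, s ∈ R) ∧
    ∀ r ∈ R, ∃ c : F → K₀, (∀ s, c s ∈ A₀) ∧
      W.valuation (r - ∑ s ∈ S, algebraMap K₀ F (c s) * s) < 1

theorem LQ.isSm [CharZero K₀] (hac : IsAlgClosed (IsLocalRing.ResidueField A₀))
    (H : LQ A₀ ϖ₀ q al be w γ Ow' V x') (hR : IsModelPt A₀ ϖ₀ (xx al be x') R) (i : Fin 2)
    (hL : LeLoc R (V i)) (hA : ∀ i', i' ≠ i → Away R (V i')) : Depth.IsSm A₀ ϖ₀ (V i) R := by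
  have hpt : IsPt A₀ R := hR.isPt H.mChart hac
  have hB : PtBaseM A₀ ϖ₀ V R := hR.ptBaseM H.mChart
  exact ⟨hpt, H.through hac hR i hL, fun z h1 h2 => hB.qep z h1 (fun c => by
    by_cases hc : c = i
    · subst hc
      exact Or.inl h2
    · exact Or.inr (hA c hc))⟩

theorem ExportDepth.not_away_of_leLoc {W : ValuationSubring F} (hL : LeLoc R W) : ¬ Away R W := by
  rintro ⟨e, he, hlt⟩
  exact absurd hlt (he.val_eq_one hL.1).not_lt

theorem LQ.isNode [CharZero K₀] (hac : IsAlgClosed (IsLocalRing.ResidueField A₀))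
    (H : LQ A₀ ϖ₀ q al be w γ Ow' V x') (E : Eta (algebraMap K₀ F ϖ₀) V x y)
    (hR : IsModelPt A₀ ϖ₀ (xx al be x') R) (hx : x ∈ R) (hy : y ∈ R)
    (h0 : LeLoc R (V 0)) (h1 : LeLoc R (V 1)) (hfin : FinAt A₀ R) :
    Depth.IsNode A₀ ϖ₀ (V 0) (V 1) x y R := by
  have hpt : IsPt A₀ R := hR.isPt H.mChart hac
  have hB : PtBaseM A₀ ϖ₀ V R := hR.ptBaseM H.mChart
  have hU := H.unif_all
  have hx0 := loc_ne_zero E.x_unit
  have hy0 := loc_ne_zero E.y_unit
  have hx1 : (V 1).valuation x < 1 := by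
    have h := H.complete.lt_one 1
    rwa [← E.mul_eq, map_mul, E.y_unit, mul_one] at h
  have hy1 : (V 0).valuation y < 1 := by
    have h := H.complete.lt_one 0
    rwa [← E.mul_eq, map_mul, E.x_unit, one_mul] at h
  exact
    { isPt := hpt
      thri := H.through hac hR 0 h0
      thr0 := H.through hac hR 1 h1
      x_rad := mem_rad_of_val_lt h1.1 hx hx1
      y_rad := mem_rad_of_val_lt h0.1 hy hy1
      dvri := fun r hr => by
        obtain ⟨a, ha, b, hb, ha0, hb1, e⟩ := H.transversal hac hR h0 h1 r hr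
        refine ⟨b / x, hB.princ_one hU E hy b hb hb1, ?_⟩
        rw [div_mul_cancel₀ _ hx0, e, add_sub_cancel_right]
        exact ha0
      dvr0 := fun r hr => by
        obtain ⟨a, ha, b, hb, ha0, hb1, e⟩ := H.transversal hac hR h0 h1 r hr
        refine ⟨a / y, hB.princ_zero hU E hx a ha ha0, ?_⟩
        rw [div_mul_cancel₀ _ hy0, e, add_sub_cancel_left]
        exact hb1
      qep := fun z h hz0 hz1 => hB.qep z h (Fin.forall_fin_two.2 ⟨Or.inl hz0, Or.inl hz1⟩)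
      fin := hfin }

/-- every closed point is a node or a smooth point. -/
theorem LQ.classify [CharZero K₀] (hac : IsAlgClosed (IsLocalRing.ResidueField A₀))
    (H : LQ A₀ ϖ₀ q al be w γ Ow' V x') (E : Eta (algebraMap K₀ F ϖ₀) V x y)
    (hx : x ∈ ch₁ A₀ al be x') (hy : y ∈ ch₁ A₀ al be x')
    (C : CuspQ A₀ q V c (al x')⁻¹ (be x')⁻¹)
    (hfin : ∀ R, IsModelPt A₀ ϖ₀ (xx al be x') R → FinAt A₀ R)
    (hR : IsModelPt A₀ ϖ₀ (xx al be x') R) :
    Depth.IsNode A₀ ϖ₀ (V 0) (V 1) x y R ∨ (Depth.IsSm A₀ ϖ₀ (V 0) R ∧ Away R (V 1)) ∨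
      (Depth.IsSm A₀ ϖ₀ (V 1) R ∧ Away R (V 0)) := by
  have hB : PtBaseM A₀ ϖ₀ V R := hR.ptBaseM H.mChart
  have c01 : LeLoc R (V 0) → Away R (V 1) → Depth.IsSm A₀ ϖ₀ (V 0) R ∧ Away R (V 1) :=
    fun h0 a1 => ⟨H.isSm hac hR 0 h0 (fun i' hi' => by
      have : i' = 1 := by omega
      rw [this]; exact a1), a1⟩
  have c10 : LeLoc R (V 1) → Away R (V 0) → Depth.IsSm A₀ ϖ₀ (V 1) R ∧ Away R (V 0) :=
    fun h1 a0 => ⟨H.isSm hac hR 1 h1 (fun i' hi' => by
      have : i' = 0 := by omega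
      rw [this]; exact a0), a0⟩
  rcases hB.leLoc_or_away 0 with h0 | a0
  · rcases hB.leLoc_or_away 1 with h1 | a1
    · rcases H.cusp_or hac C hR with hch | ⟨-, hA⟩
      · exact Or.inl (H.isNode hac E hR (hch x hx) (hch y hy) h0 h1 (hfin R hR))
      · rcases hA with hA | hA
        · exact absurd hA (ExportDepth.not_away_of_leLoc h0)
        · exact absurd hA (ExportDepth.not_away_of_leLoc h1)
    · exact Or.inr (Or.inl (c01 h0 a1))
  · rcases hB.leLoc_or_away 1 with h1 | a1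
    · exact Or.inr (Or.inr (c10 h1 a0))
    · exact absurd (Fin.forall_fin_two.2 ⟨a0, a1⟩) hB.not_all_away

/-- **EXPORT**: the nodal model at `e = 1`, with the tautological sets of points. -/
theorem LQ.nodalModel [CharZero K₀] (hac : IsAlgClosed (IsLocalRing.ResidueField A₀))
    (H : LQ A₀ ϖ₀ q al be w γ Ow' V x') (E : Eta (algebraMap K₀ F ϖ₀) V x y)
    (hx : x ∈ ch₁ A₀ al be x') (hy : y ∈ ch₁ A₀ al be x')
    (C : CuspQ A₀ q V c (al x')⁻¹ (be x')⁻¹)
    (hfin : ∀ R, IsModelPt A₀ ϖ₀ (xx al be x') R → FinAt A₀ R) :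
    Depth.NodalModel A₀ ϖ₀ 1 (V 0) (V 1) x y {R | Depth.IsSm A₀ ϖ₀ (V 0) R}
      {R | Depth.IsSm A₀ ϖ₀ (V 1) R} {R | Depth.IsNode A₀ ϖ₀ (V 0) (V 1) x y R} where
  unifA := H.vert'.unif₀
  unifi := H.unif_all 0
  unif0 := H.unif_all 1
  consti := H.complete.const_mem 0
  const0 := H.complete.const_mem 1
  e_pos := one_pos
  xy := ⟨ϖ₀, by simp, E.mul_eq⟩
  x_i := E.x_unit
  y_0 := E.y_unit
  smi := fun _ h => h
  sm0 := fun _ h => h
  nd := fun _ h => h
  regi := fun f hf h => H.mChart.const_of_regular hac 0 hf (fun R hR hL => h R (by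
    rcases H.classify hac E hx hy C hfin hR with hn | ⟨hs, -⟩ | ⟨-, ha⟩
    · exact Or.inr hn
    · exact Or.inl hs
    · exact absurd ha (ExportDepth.not_away_of_leLoc hL)))
  reg0 := fun f hf h => H.mChart.const_of_regular hac 1 hf (fun R hR hL => h R (by
    rcases H.classify hac E hx hy C hfin hR with hn | ⟨-, ha⟩ | ⟨hs, -⟩
    · exact Or.inr hn
    · exact absurd ha (ExportDepth.not_away_of_leLoc hL)
    · exact Or.inl hs))

/-- the analogue of `LQ.exists_point` for the consumer `S44/Depth`. -/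
theorem LQ.exists_point_depth [CharZero K₀] (hac : IsAlgClosed (IsLocalRing.ResidueField A₀))
    (H : LQ A₀ ϖ₀ q al be w γ Ow' V x') (E : Eta (algebraMap K₀ F ϖ₀) V x y)
    (hx : x ∈ ch₁ A₀ al be x') (hy : y ∈ ch₁ A₀ al be x')
    (C : CuspQ A₀ q V c (al x')⁻¹ (be x')⁻¹)
    (hfin : ∀ R, IsModelPt A₀ ϖ₀ (xx al be x') R → FinAt A₀ R)
    (VV : ValuationSubring F) (hA : ∀ a ∈ A₀, algebraMap K₀ F a ∈ VV) (hle : VV ≤ V 0)
    (hne : VV ≠ V 0) :
    ∃ R : Subring F, IsModelPt A₀ ϖ₀ (xx al be x') R ∧ Dominates VV R ∧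
      (al x' ∈ VV →
        Depth.IsNode A₀ ϖ₀ (V 0) (V 1) x y R ∨ (Depth.IsSm A₀ ϖ₀ (V 0) R ∧ RUnit R x)) ∧
      (al x' ∉ VV → Depth.IsSm A₀ ϖ₀ (V 0) R) := by
  obtain ⟨R, hR, hd⟩ := H.mChart.proper VV hA 0 hle hne
  have hB : PtBaseM A₀ ϖ₀ V R := hR.ptBaseM H.mChart
  have hL0 : LeLoc R (V 0) := hB.leLoc_of_dominates hle hd
  refine ⟨R, hR, hd, ?_⟩
  rcases H.cusp_or hac C hR with hch | ⟨hs, hA'⟩
  · have h1 : al x' ∈ R := hch _ (H.al_mem_ch₁ (self_mem_chart _))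
    refine ⟨fun _ => ?_, fun h => absurd (hd.1 _ h1) h⟩
    rcases H.classify hac E hx hy C hfin hR with hn | ⟨hs, ha⟩ | ⟨-, ha⟩
    · exact Or.inl hn
    · exact Or.inr ⟨hs, hB.runit_x E (hch x hx) (hch y hy) ha⟩
    · exact absurd ha (ExportDepth.not_away_of_leLoc hL0)
  · refine ⟨fun h => ?_, fun _ => ?_⟩
    · exfalso
      have h3 := hd.2 _ hs
      have h4 := (VV.valuation_le_one_iff _).2 h
      have h5 : VV.valuation ((al x')⁻¹ * al x') < 1 := by
        rw [map_mul]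
        exact mul_lt_one_of_lt_of_le h3 h4
      rw [inv_mul_cancel₀ (fun h => C.ne (by rw [h, inv_zero])), map_one] at h5
      exact lt_irrefl _ h5
    · have a1 : Away R (V 1) := hA'.resolve_left (ExportDepth.not_away_of_leLoc hL0)
      exact H.isSm hac hR 0 hL0 (fun i' hi' => by
        have : i' = 1 := by omega
        rw [this]; exact a1)

end Fermat.Agent.BAD.LevelQ

end
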